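/-
GATE-Z (S15) / (UNIT) U0 + U1 (helper24; design helper65, board 4895): the two cusps of `X₀(p)` and
the divisor of the eta quotient `g = Δ(Q)/Δ(Q^p)`.

* `cuspZero hp := wAut • cuspInf p` : the cusp `0` (Atkin–Lehner image of the `q`-place);
* `ord_cuspInf`  : `ord_∞ f` is the `Q`-adic order of the `Q`-expansion of `f`;
* `ord_cuspZero` : `ord_0 f = ord_∞ (W f)`;
* `galois_smul_cuspZero` : `0` is fixed by the arithmetic Galois action;
* `cuspZero_ne_cuspInf`;
* `eq_cusp_of_ord_jF_neg` : a place at which `j` has a pole is `∞` or `0` (the fibre of `j = ∞` has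
  `cuspCount p = 2` elements: `S24.CuspFinal.card_fibre_infty`);
* `ord_etaQ` : **`ord_P g = (p - 1) * ([P = 0] - [P = ∞])`** for every place `P`;
* `nsmul_diffCl_eq_zero` : **`(p - 1) • [(0) - (∞)] = 0`** in `J₀(p)`;
* `smul_diffCl_cusp` : the cuspidal class is Galois-fixed.
-/
import Fermat.Agent.GZ.Top.S15Top
import Fermat.Agent.GL.Eta.Fricke
import Fermat.Agent.GL.Eta.RegFin
import Fermat.Agent.S24.CuspFinal
import Fermat.Agent.GK.AL.WGal

set_option autoImplicit false

noncomputable section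

open AlgebraicCurve ModularCurve

namespace Fermat.Agent.GZ.Unit

open Fermat.Agent.S24 Fermat.Agent.S24.Degree Fermat.Agent.S28 Fermat.Agent.GK.AL Fermat.Agent.GL.Eta
  Fermat.Agent.GR.W.RatRep Fermat.Agent.GZ.Top

local notation "GQ" => (AlgebraicClosure ℚ ≃ₐ[ℚ] AlgebraicClosure ℚ)

variable {p : ℕ} [NeZero p]

omit [NeZero p] in
/-- `p ∥ p` -/
theorem exactDvd_self (hp : p.Prime) : ExactDvd p p :=
  ⟨hp, dvd_rfl, fun h => by
    have h1 := Nat.le_of_dvd hp.pos h
    have h2 := hp.one_lt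
    nlinarith⟩

/-- **the cusp `0` of `X₀(p)`** -/
def cuspZero (hp : p.Prime) : Place Kbar (FN p) := wAut (exactDvd_self hp) • cuspInf p

/-! ### orders at the two cusps -/

/-- `ord_∞` is the `Q`-adic order -/
theorem ord_cuspInf (f : FN p) : (cuspInf p).ord f = (f : LaurentSeries Kbar).order :=
  Fermat.Agent.GJ.Desc.qPlace_ord Kbar (modularFunctionFieldFull p)
    (Fermat.Agent.GJ.Desc.Modular.exists_order_ne_zero p)
    ⟨jq, modularFunctionField_le_full p (jq_mem p), by
      rw [← jqModC_rat, Fermat.Agent.S28.order_jqModC]⟩ f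

/-- `ord_0 f = ord_∞ (W f)` -/
theorem ord_cuspZero (hp : p.Prime) (f : FN p) :
    (cuspZero hp).ord f = (cuspInf p).ord (wAut (exactDvd_self hp) f) := by
  have h := Place.ord_smul (wAut (exactDvd_self hp)) (cuspInf p) (wAut (exactDvd_self hp) f)
  rwa [wAut_wAut] at h

/-! ### the `Q`-orders of `g = Δ(Q)/Δ(Q^p)`, `j`, `j(Q^p)` -/

theorem hasLead_uInvS (R : Type*) [CommRing R] (d : ℕ) [NeZero d] :
    HasLead (uInvS R d) (1 - (d : ℤ)) 1 := by
  have h := ((hasLead_deltaInvS R).qExpand d).mul (hasLead_deltaS R)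
  exact h.congr (by ring) (by ring)

theorem order_uInvS (d : ℕ) [NeZero d] : (uInvS Kbar d).order = 1 - (d : ℤ) :=
  (hasLead_uInvS Kbar d).order_eq one_ne_zero

theorem order_jS (d : ℕ) [NeZero d] : (jS Kbar d).order = -(d : ℤ) := by
  have h := (hasLead_jqModC Kbar).qExpand d
  rw [jS, h.order_eq one_ne_zero]
  ring

/-- the eta quotient of level `p` -/
abbrev gEta (p : ℕ) [NeZero p] : FN p := etaQ p p dvd_rfl

theorem gEta_ne_zero : gEta p ≠ 0 := etaQ_ne_zero p p dvd_rfl

/-- `ord_∞ g = 1 - p` -/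
theorem ord_cuspInf_gEta : (cuspInf p).ord (gEta p) = 1 - (p : ℤ) := by
  rw [ord_cuspInf, coe_etaQ, order_uInvS]

/-- `ord_∞ j = -1` -/
theorem ord_cuspInf_jF : (cuspInf p).ord (jF p) = -1 := by
  rw [ord_cuspInf, coe_jF', Fermat.Agent.S28.order_jqModC]

/-- `ord_0 j = -p` -/
theorem ord_cuspZero_jF (hp : p.Prime) : (cuspZero hp).ord (jF p) = -(p : ℤ) := by
  rw [ord_cuspZero, wAut_jF' (exactDvd_self hp), ord_cuspInf, coe_jdF', order_jS]

/-- `ord_0 g = p - 1` (Fricke) -/
theorem ord_cuspZero_gEta (hp : p.Prime) : (cuspZero hp).ord (gEta p) = (p : ℤ) - 1 := by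
  rw [ord_cuspZero]
  have hF := wAut_etaQ_mul (exactDvd_self hp)
  have hg : gEta p ≠ 0 := gEta_ne_zero
  have hW : wAut (exactDvd_self hp) (gEta p) ≠ 0 := by
    intro h0
    rw [show etaQ p p (exactDvd_self hp).dvd = gEta p from rfl, h0, zero_mul] at hF
    exact pow_ne_zero 12 (Nat.cast_ne_zero.2 hp.ne_zero) hF.symm
  have h1 := (cuspInf p).ord_mul hW hg
  rw [show wAut (exactDvd_self hp) (gEta p) * gEta p = (p : FN p) ^ 12 from hF] at h1
  have h2 : (cuspInf p).ord ((p : FN p) ^ 12) = 0 := by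
    rw [ord_cuspInf]
    have : (((p : FN p) ^ 12 : FN p) : LaurentSeries Kbar)
        = HahnSeries.C ((p : Kbar) ^ 12) := by
      rw [map_pow, map_natCast]
      rfl
    rw [this]
    exact HahnSeries.order_C
  rw [h2, ord_cuspInf_gEta] at h1
  linarith

/-- the two cusps are distinct -/
theorem cuspZero_ne_cuspInf (hp : p.Prime) : cuspZero hp ≠ cuspInf p := by
  intro h
  have h1 := ord_cuspZero_gEta hp
  rw [h, ord_cuspInf_gEta] at h1
  have := hp.two_le
  have : (2 : ℤ) ≤ (p : ℤ) := by exact_mod_cast this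
  linarith

/-! ### Galois invariance of the cusp `0` -/

/-- a semilinear automorphism and a `K`-automorphism that commute on functions commute on places -/
theorem smul_comm_place {K F : Type*} [Field K] [Field F] [Algebra K F]
    (g : SemilinearAut K F) (w : F ≃ₐ[K] F) (hcomm : ∀ f : F, w (g • f) = g • w f)
    (v : Place K F) : g • (w • v) = w • (g • v) := by
  apply Place.ext
  rw [SemilinearAut.smul_toValuationSubring, Place.smul_toValuationSubring,
    Place.smul_toValuationSubring, SemilinearAut.smul_toValuationSubring]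
  ext x
  simp only [ValuationSubring.mem_pointwise_smul_iff_inv_smul_mem]
  have key : w⁻¹ • g⁻¹ • x = g⁻¹ • w⁻¹ • x := by
    rw [inv_smul_eq_iff, eq_comm, ← inv_smul_eq_iff, eq_comm, inv_inv]
    have h := hcomm (g⁻¹ • w⁻¹ • x)
    rw [smul_inv_smul] at h
    have h2 : w (w⁻¹ • x) = x := smul_inv_smul w x
    rw [h2] at h
    exact h
  rw [key]

/-- **the cusp `0` is fixed by the arithmetic Galois action** (`W_p` is defined over `ℚ`) -/
theorem galois_smul_cuspZero (hp : p.Prime) (σ : GQ) :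
    arithmeticGalois (modularFunctionFieldFull p) σ • cuspZero hp = cuspZero hp := by
  unfold cuspZero
  rw [smul_comm_place _ _ (fun f => wAut_arithmeticRingAut (exactDvd_self hp) σ f),
    galois_smul_cuspInf]

/-! ### the fibre of `j = ∞` -/

omit [NeZero p] in
theorem cuspCount_prime (hp : p.Prime) : cuspCount p = 2 := by
  unfold cuspCount
  rw [hp.divisors, Finset.sum_pair hp.one_lt.ne]
  simp [Nat.div_self hp.pos]

/-- **a pole of `j` is one of the two cusps** -/
theorem eq_cusp_of_ord_jF_neg (hp : p.Prime) (P : Place Kbar (FN p)) (hP : P.ord (jF p) < 0) :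
    P = cuspInf p ∨ P = cuspZero hp := by
  have hcard : Nat.card (Fibre Kbar (jF p)⁻¹) = 2 := by
    rw [Fermat.Agent.S24.CuspFinal.card_fibre_infty, cuspCount_prime hp]
  have hinv : ∀ Q : Place Kbar (FN p), Q.ord (jF p) < 0 → 0 < Q.ord (jF p)⁻¹ := fun Q hQ => by
    rw [Q.ord_inv]; linarith
  let a : Fibre Kbar (jF p)⁻¹ := ⟨cuspInf p, hinv _ (by rw [ord_cuspInf_jF]; norm_num)⟩
  let b : Fibre Kbar (jF p)⁻¹ := ⟨cuspZero hp, hinv _ (by
    rw [ord_cuspZero_jF hp]
    have := hp.pos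
    omega)⟩
  let c : Fibre Kbar (jF p)⁻¹ := ⟨P, hinv _ hP⟩
  obtain ⟨b', -, hb'⟩ := (Nat.card_eq_two_iff' a).1 hcard
  have hba : b ≠ a := fun h => cuspZero_ne_cuspInf hp (congrArg Subtype.val h)
  by_cases hca : c = a
  · exact Or.inl (congrArg Subtype.val hca)
  · right
    have h1 : c = b' := hb' c hca
    have h2 : b = b' := hb' b hba
    exact congrArg Subtype.val (h1.trans h2.symm)

/-- **(U1)** the divisor of the eta quotient: `ord_P g = (p - 1) ([P = 0] - [P = ∞])` -/
theorem ord_gEta (hp : p.Prime) (P : Place Kbar (FN p)) :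
    P.ord (gEta p) = ((p : ℤ) - 1) *
      ((Finsupp.single (cuspZero hp) (1 : ℤ) - Finsupp.single (cuspInf p) (1 : ℤ) :
        Divisor Kbar (FN p)) P) := by
  classical
  rw [Finsupp.sub_apply, Finsupp.single_apply, Finsupp.single_apply]
  by_cases hj : P.ord (jF p) < 0
  · rcases eq_cusp_of_ord_jF_neg hp P hj with rfl | rfl
    · rw [if_neg (cuspZero_ne_cuspInf hp), if_pos rfl, ord_cuspInf_gEta]
      ring
    · rw [if_pos rfl, if_neg (cuspZero_ne_cuspInf hp).symm, ord_cuspZero_gEta hp]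
      ring
  · have h0 : P.ord (gEta p) = 0 := ord_etaQ_eq_zero p p dvd_rfl P (not_lt.1 hj)
    have h1 : cuspZero hp ≠ P := by
      rintro rfl
      apply hj
      rw [ord_cuspZero_jF hp]
      have := hp.pos
      omega
    have h2 : cuspInf p ≠ P := by
      rintro rfl
      apply hj
      rw [ord_cuspInf_jF]
      norm_num
    rw [h0, if_neg h1, if_neg h2]
    ring

/-! ### the cuspidal class -/

/-- **`(p - 1) • [(0) - (∞)] = 0`** -/
theorem nsmul_diffCl_eq_zero (hp : p.Prime) :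
    (p - 1) • diffCl p (cuspZero hp) (cuspInf p) = 0 := by
  unfold diffCl Pic0.mk
  rw [← QuotientAddGroup.mk_nsmul, QuotientAddGroup.eq_zero_iff, AddSubgroup.mem_addSubgroupOf,
    AddSubgroup.coe_nsmul]
  refine ⟨gEta p, gEta_ne_zero, fun v => ?_⟩
  rw [ord_gEta hp v, Finsupp.smul_apply, nsmul_eq_mul]
  have h1 : ((p - 1 : ℕ) : ℤ) = (p : ℤ) - 1 := by
    have := hp.pos
    omega
  rw [h1]
  rfl

/-- the cuspidal class is fixed by Galois -/
theorem smul_diffCl_cusp (hp : p.Prime) (σ : GQ) :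
    σ • diffCl p (cuspZero hp) (cuspInf p) = diffCl p (cuspZero hp) (cuspInf p) :=
  smul_diffCl σ (galois_smul_cuspZero hp σ) (galois_smul_cuspInf p σ)

/-- **(UNIT), assembly**: the `CuspPkg` of `GZ/Top/S15Top` from the Hecke-eigen property (U3). -/
def cuspPkg (hp : p.Prime)
    (hecke : ∀ q : Nat.Primes, (q : ℕ) ≠ p →
      heckeOperatorBar p q (diffCl p (cuspZero hp) (cuspInf p)) =
        ((q : ℕ) + 1) • diffCl p (cuspZero hp) (cuspInf p)) : CuspPkg p where
  zero := cuspZero hp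
  zero_fixed := galois_smul_cuspZero hp
  tors := nsmul_diffCl_eq_zero hp
  hecke := hecke

end Fermat.Agent.GZ.Unit
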