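/-
GATE-Z (S15) / node (UNIT), layer U0, GENERAL LEVEL `q ∥ N` variant, ns `Fermat.Agent.GZ.UnitN`
(the level-`p` version of record is helper24's `GZ/Unit/Cusps.lean`, ns `Fermat.Agent.GZ.Unit`) (helper25; design helper65 board 4895, contract helper20 5748):
the two cusps of `X₀(N)` attached to a prime `q ∥ N` as PLACES of `F_N = ℚ̄(X₀(N))`.

* `ord_cuspInf`   : `ord_∞ f` = the `Q`-order of the expansion of `f`;
* `cuspZero h`    : `:= W_q • ∞` (`W_q = wAut h`, `h : ExactDvd q N`), the cusp `0` when `N = q`;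
* `ord_cuspZero`  : `ord_{W∞} f = ord_∞ (W f)`;
* `galois_smul_cuspZero` : `W∞` is fixed by the arithmetic Galois action (`W_q` is defined over `ℚ`);
* `ord_etaQ_cuspInf = 1 − q`, `ord_etaQ_cuspZero = q − 1` for `g = Δ(Q)/Δ(Q^q)` (Fricke
  `W g · g = q¹²`);  `cuspZero_ne_cuspInf`;
* `ord_jF_cuspInf = −1`, `ord_jF_cuspZero = −q`.
-/
import Mathlib
import Fermat.Agent.GL.Eta.Fricke
import Fermat.Agent.GL.Eta.RegFin
import Fermat.Agent.GK.AL.WGal
import Fermat.Agent.GR.W.RatRep
import Fermat.Agent.S28.UnitOrders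

set_option autoImplicit false

noncomputable section

namespace Fermat.Agent.GZ.UnitN

open AlgebraicCurve ModularCurve
open Fermat.Agent.GR.W.RatRep Fermat.Agent.GK.AL Fermat.Agent.GL.Eta
open Fermat.Agent.S24 Fermat.Agent.S28

local notation "Qb" => AlgebraicClosure ℚ
local notation "GQ" => (AlgebraicClosure ℚ ≃ₐ[ℚ] AlgebraicClosure ℚ)

/-! ### a commutation lemma for the two actions on places -/

section Comm

variable {K F : Type*} [Field K] [Field F] [Algebra K F]

open scoped Pointwise in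
/-- a `K`-automorphism commuting with a semilinear automorphism: the two actions on places
commute. -/
theorem smul_smul_place_comm (g : SemilinearAut K F) (W : F ≃ₐ[K] F)
    (hc : ∀ f : F, W (g • f) = g • W f) (v : Place K F) : g • (W • v) = W • (g • v) := by
  apply Place.ext
  rw [SemilinearAut.smul_toValuationSubring, Place.smul_toValuationSubring,
    Place.smul_toValuationSubring, SemilinearAut.smul_toValuationSubring]
  ext x
  simp only [ValuationSubring.mem_pointwise_smul_iff_inv_smul_mem]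
  have e : W⁻¹ • (g⁻¹ • x) = g⁻¹ • (W⁻¹ • x) := by
    have h1 := hc (g⁻¹ • (W⁻¹ • x))
    rw [smul_inv_smul] at h1
    have h2 : W (W⁻¹ • x) = x := by
      show W (W⁻¹ x) = x
      rw [AlgEquiv.aut_inv, AlgEquiv.apply_symm_apply]
    rw [h2] at h1
    -- `x = g • W (g⁻¹ • W⁻¹ • x)`
    have h3 : g⁻¹ • x = W (g⁻¹ • (W⁻¹ • x)) := by
      conv_lhs => rw [h1, inv_smul_smul]
    rw [h3]
    show W⁻¹ (W _) = _
    rw [AlgEquiv.aut_inv, AlgEquiv.symm_apply_apply]
  rw [e]

end Comm

/-! ### the cusp `∞` -/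

section Inf

variable (N : ℕ) [NeZero N]

/-- `ord_∞` is the `Q`-adic order of the expansion. -/
theorem ord_cuspInf (f : FN N) : (cuspInf N).ord f = (f : LaurentSeries Qb).order := by
  refine Fermat.Agent.GJ.Desc.qPlace_ord Qb (modularFunctionFieldFull N)
    (Fermat.Agent.GJ.Desc.Modular.exists_order_ne_zero N) ?_ f
  refine ⟨jq, modularFunctionField_le_full N (jq_mem N), ?_⟩
  rw [← jqModC_rat, Fermat.Agent.S28.order_jqModC]

theorem ord_jF_cuspInf : (cuspInf N).ord (jF N) = -1 := by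
  rw [ord_cuspInf, Fermat.Agent.S24.Degree.coe_jF', Fermat.Agent.S28.order_jqModC]

end Inf

/-! ### the cusp `W_q ∞` -/

section Zero

variable {q N : ℕ} [NeZero N] (h : ExactDvd q N)

/-- the cusp `W_q • ∞` of `X₀(N)`, `q ∥ N` (the cusp `0` when `N = q`). -/
def cuspZero : Place Qb ↥(modularFunctionFieldBar N) := wAut h • cuspInf N

theorem ord_cuspZero (f : FN N) : (cuspZero h).ord f = (cuspInf N).ord (wAut h f) := by
  have := Place.ord_smul (wAut h) (cuspInf N) (wAut h f)
  rw [wAut_wAut] at this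
  exact this

/-- `W_q ∞` is fixed by the arithmetic Galois action. -/
theorem galois_smul_cuspZero (σ : GQ) :
    arithmeticGalois (modularFunctionFieldFull N) σ • cuspZero h = cuspZero h := by
  unfold cuspZero
  rw [smul_smul_place_comm _ _ (fun f => ?_), galois_smul_cuspInf]
  exact wAut_arithmeticRingAut h σ f

variable [NeZero q]

theorem order_uInvS (R : Type*) [CommRing R] [Nontrivial R] (d : ℕ) [NeZero d] :
    (uInvS R d).order = 1 - (d : ℤ) := by
  have hl : HasLead (uInvS R d) ((d : ℤ) * -1 + 1) (1 * 1) := by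
    unfold uInvS
    have h1 := (hasLead_deltaInvS R).qExpand d
    exact h1.mul (hasLead_deltaS R)
  rw [hl.order_eq (by rw [one_mul]; exact one_ne_zero)]
  ring

theorem ord_etaQ_cuspInf : (cuspInf N).ord (etaQ N q h.dvd) = 1 - (q : ℤ) := by
  rw [ord_cuspInf, coe_etaQ, order_uInvS]

theorem ord_etaQ_cuspZero : (cuspZero h).ord (etaQ N q h.dvd) = (q : ℤ) - 1 := by
  have hq0 : (q : FN N) ≠ 0 := Nat.cast_ne_zero.2 (NeZero.ne q)
  have hq12 : ((q : FN N)) ^ 12 ≠ 0 := pow_ne_zero _ hq0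
  rw [ord_cuspZero, wAut_etaQ, div_eq_mul_inv,
    Place.ord_mul _ hq12 (inv_ne_zero (etaQ_ne_zero N q h.dvd)), Place.ord_inv, ord_etaQ_cuspInf h]
  have hc : (cuspInf N).ord ((q : FN N) ^ 12) = 0 := by
    have e : ((q : FN N)) ^ 12 = algebraMap Qb (FN N) ((q : Qb) ^ 12) := by
      rw [map_pow, map_natCast]
    rw [e]
    exact Fermat.Agent.GJ.FF.ord_eq_zero_of_isAlgebraic _ (isAlgebraic_algebraMap _)
  rw [hc]
  ring

theorem cuspZero_ne_cuspInf (hq : 2 ≤ q) : cuspZero h ≠ cuspInf N := by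
  intro e
  have h1 := ord_etaQ_cuspZero h
  rw [e, ord_etaQ_cuspInf h] at h1
  have : (2 : ℤ) ≤ q := by exact_mod_cast hq
  omega

theorem ord_jF_cuspZero : (cuspZero h).ord (jF N) = -(q : ℤ) := by
  rw [ord_cuspZero, wAut_jF' h, ord_cuspInf, coe_jdF', jS]
  have h1 := (hasLead_jqModC Qb).qExpand q
  rw [h1.order_eq one_ne_zero]
  ring

end Zero

end Fermat.Agent.GZ.UnitN
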