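/-
GATE-Z (S15) / node (UNIT), layer U3 (helper25; design helper65 board 4895, ruling helper20 5806 R3,
vocabulary helper24 `GZ/Unit/Cusps.lean`): the cuspidal class `c = [(0) − (∞)]` of `X₀(p)` is an
EISENSTEIN eigenclass:  `T_r c = (r + 1) • c` for every prime `r ≠ p`.

Route (divisor level, no fibre analysis over the cusps): `g = Δ(Q)/Δ(Q^p)`, `div g = (p−1)·D₀`,
`D₀ = (0) − (∞)`.  `v := heckeNormF p r g = Norm_α(β g)` has `div v = T_r (div g)` (`GJ/HN/Div`).

* `uInvS_mul`           : `Δ(Q)/Δ(Q^{ed}) = Δ(Q)/Δ(Q^e) · (Δ(Q)/Δ(Q^d))(Q^e)`  (series identity);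
* `betaH_gEta_mul`      : `β g · etaQ_{pr}(r) = etaQ_{pr}(rp)` in `F_{pr}`;
* `ord_betaH_gEta`      : `β g` has neither zero nor pole where `j` is finite (level `pr`);
* `ord_norm_eq_zero`    : (general) the norm formula: `ord_P (Norm x) = 0` if `ord_w x = 0` on the
                          fibre of `P`;
* `ord_heckeNormF_of_nonneg` : `ord_P v = 0` where `j` is finite;
* `ord_cuspInf_heckeNormF`   : `ord_∞ v = (r+1)(1−p)`  (`qExpand_heckeNormF`);
* `ord_heckeNormF`      : `ord_P v = (r+1) · ord_P g` for EVERY place `P` (degree zero);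
* `heckeDivBar_diffDiv` : `T_r D₀ = (r+1) • D₀` (divisors are torsion free);
* **`hecke_cusp`**      : `heckeOperatorBar p q c = (q+1) • c` — the `hecke` binder of
                          `Cusps.cuspPkg` VERBATIM;   **`cuspPkgFinal hp : CuspPkg p`**.
-/
import Mathlib
import Fermat.Agent.GZ.Unit.Cusps
import Fermat.Agent.GJ.HN.Div
import Fermat.Agent.GJ.HInputs.Modular

set_option autoImplicit false
set_option linter.style.haveILetI false

noncomputable section

open AlgebraicCurve ModularCurve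

namespace Fermat.Agent.GZ.Unit.Hecke

open Fermat.Agent.S24 Fermat.Agent.S24.Degree Fermat.Agent.S28 Fermat.Agent.S28.CuspExp
  Fermat.Agent.GK.AL Fermat.Agent.GL.Eta Fermat.Agent.GR.W.RatRep Fermat.Agent.GZ.Top
  Fermat.Agent.GZ.Unit Fermat.Agent.GJ.HN

/-! ### a series identity -/

section Series

variable (R : Type*) [CommRing R]

/-- `Δ(Q)/Δ(Q^{ed}) = (Δ(Q)/Δ(Q^e)) · (Δ(Q)/Δ(Q^d))(Q^e)`. -/
theorem uInvS_mul (e d : ℕ) [NeZero e] [NeZero d] [NeZero (e * d)] :
    uInvS R (e * d) = uInvS R e * qExpand R e (uInvS R d) := by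
  have h1 : qExpand R e (deltaInvS R) * qExpand R e (deltaS R) = 1 := by
    rw [← map_mul, deltaInvS_mul_deltaS, map_one]
  unfold uInvS
  rw [map_mul, qExpand_qExpand]
  calc qExpand R (e * d) (deltaInvS R) * deltaS R
      = (qExpand R e (deltaInvS R) * qExpand R e (deltaS R)) *
          (qExpand R (e * d) (deltaInvS R) * deltaS R) := by rw [h1, one_mul]
    _ = _ := by ring

end Series

/-! ### a general consequence of the norm formula -/

section Norm

variable {K F F' : Type*} [Field K] [Field F] [Field F'] [Algebra K F] [Algebra K F']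
  [Algebra F F'] [IsScalarTower K F F'] [Algebra.IsIntegral F F'] [Module.Finite F F']
  [HasPrincipalDivisors K F']

/-- if `x` has neither zero nor pole on the fibre of `P`, its norm has neither zero nor pole at
`P`. -/
theorem ord_norm_eq_zero (H : Divisor.PushforwardNormFormula K F F') {x : F'} (hx : x ≠ 0)
    (P : Place K F) (h : ∀ w : Place K F', w.restrict F = P → w.ord x = 0) :
    P.ord (Algebra.norm F x) = 0 := by
  classical
  obtain ⟨E, hE, -⟩ := HasPrincipalDivisors.exists_divisor (K := K) (F := F') x hx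
  rw [← H x hx E hE P, Divisor.pushforward_apply]
  refine Finset.sum_eq_zero fun w _ => ?_
  split_ifs with hw
  · rw [hE w, h w hw, zero_mul]
  · rfl

end Norm

/-! ### the Hecke norm of the eta quotient -/

section Level

variable {p : ℕ} [NeZero p] (r : ℕ) [hr : Fact r.Prime]

theorem betaH_gEta_ne_zero : betaH p r (gEta p) ≠ 0 := fun h =>
  gEta_ne_zero (p := p) ((betaH p r).toRingHom.injective (by simpa using h))

/-- `β g · etaQ_{pr}(r) = etaQ_{pr}(rp)` in `F_{pr}`. -/
theorem betaH_gEta_mul :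
    betaH p r (gEta p) * etaQ (p * r) r (dvd_mul_left r p) =
      etaQ (p * r) (r * p) (dvd_level_of_dvd p r dvd_rfl) := by
  apply Subtype.ext
  show ((betaH p r (gEta p) : FN (p * r)) : LaurentSeries Kbar) *
      ((etaQ (p * r) r (dvd_mul_left r p) : FN (p * r)) : LaurentSeries Kbar) =
    ((etaQ (p * r) (r * p) (dvd_level_of_dvd p r dvd_rfl) : FN (p * r)) : LaurentSeries Kbar)
  rw [coe_heckeBetaBar, coe_etaQ, coe_etaQ, coe_etaQ, uInvS_mul Kbar r p, mul_comm]

/-- `β g` has neither zero nor pole where `j` is finite. -/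
theorem ord_betaH_gEta (w : Place Kbar (FN (p * r))) (hw : 0 ≤ w.ord (jF (p * r))) :
    w.ord (betaH p r (gEta p)) = 0 := by
  have h := congrArg w.ord (betaH_gEta_mul (p := p) r)
  rw [w.ord_mul (betaH_gEta_ne_zero r) (etaQ_ne_zero _ _ _), ord_etaQ_eq_zero _ _ _ w hw,
    ord_etaQ_eq_zero _ _ _ w hw, add_zero] at h
  exact h

/-- `v = Norm_α(β g)` has neither zero nor pole where `j` is finite. -/
theorem ord_heckeNormF_of_nonneg (hα : HeckeAlphaBarIntegral Kbar p r)
    [HasPrincipalDivisors Kbar (FN (p * r))]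
    (hfin : FiniteAlong Kbar (alphaH p r)) (hNF : NormFormulaAlong Kbar (alphaH p r) hfin)
    (P : Place Kbar (FN p)) (hP : 0 ≤ P.ord (jF p)) :
    P.ord (heckeNormF p r (gEta p)) = 0 := by
  letI := algebraAlong (alphaH p r)
  haveI := isScalarTower_along (alphaH p r)
  haveI := isIntegral_along (alphaH p r) hα
  haveI : Module.Finite (FN p) (FN (p * r)) := hfin
  refine ord_norm_eq_zero hNF (betaH_gEta_ne_zero r) P fun w hw => ord_betaH_gEta r w ?_
  have h1 := Place.ord_restrict (F := FN p) w (jF p)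
  have h2 : algebraMap (FN p) (FN (p * r)) (jF p) = jF (p * r) := alphaH_jF p r
  rw [h2, hw] at h1
  rw [h1]
  exact mul_nonneg (Int.natCast_nonneg _) hP

/-- `ord_∞ v = (r + 1)(1 − p)`. -/
theorem ord_cuspInf_heckeNormF (hrp : ¬ r ∣ p) (hfin : FiniteAlong Kbar (alphaH p r)) :
    (cuspInf p).ord (heckeNormF p r (gEta p)) = ((r : ℤ) + 1) * (1 - (p : ℤ)) := by
  have hq := qExpand_heckeNormF p r hrp hfin (zetaL_isPrimitiveRoot p r) (gEta p)
  have hg0 : ((gEta p : FN p) : LaurentSeries Kbar) ≠ 0 := fun h =>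
    gEta_ne_zero (p := p) (Subtype.ext h)
  have hgo : ((gEta p : FN p) : LaurentSeries Kbar).order = 1 - (p : ℤ) := by
    rw [coe_etaQ, order_uInvS]
  have hs : ∀ b ∈ Finset.range r,
      scaleHom Kbar (zetaL p r ^ b) ((gEta p : FN p) : LaurentSeries Kbar) ≠ 0 := fun b _ h =>
    hg0 ((scaleHom_eq_zero_iff _ _).1 h)
  have h1 := congrArg HahnSeries.order hq
  rw [order_qExpand, HahnSeries.order_mul
      (fun h => hg0 ((qExpand_eq_zero_iff r _).1 ((qExpand_eq_zero_iff r _).1 h)))
      (Finset.prod_ne_zero_iff.2 hs),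
    order_qExpand, order_qExpand, order_prod_eq_sum _ _ hs,
    Finset.sum_congr rfl (fun b _ => order_scaleHom _ _), Finset.sum_const, Finset.card_range,
    hgo, nsmul_eq_mul] at h1
  rw [ord_cuspInf]
  have hr0 : (r : ℤ) ≠ 0 := Nat.cast_ne_zero.2 hr.out.ne_zero
  apply mul_left_cancel₀ hr0
  rw [h1]
  ring

/-- **`div v = (r + 1) · div g`**: `ord_P v = (r + 1) · ord_P g` at EVERY place. -/
theorem ord_heckeNormF (hp : p.Prime) (hrp : ¬ r ∣ p) (hα : HeckeAlphaBarIntegral Kbar p r)
    [HasPrincipalDivisors Kbar (FN (p * r))]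
    (hfin : FiniteAlong Kbar (alphaH p r)) (hNF : NormFormulaAlong Kbar (alphaH p r) hfin)
    (P : Place Kbar (FN p)) :
    P.ord (heckeNormF p r (gEta p)) = ((r : ℤ) + 1) * P.ord (gEta p) := by
  classical
  have hp2 : (2 : ℤ) ≤ p := by exact_mod_cast hp.two_le
  have hr0 : (0 : ℤ) ≤ r := Int.natCast_nonneg r
  have hinf := ord_cuspInf_heckeNormF (p := p) r hrp hfin
  have hv0 : heckeNormF p r (gEta p) ≠ 0 := by
    intro h
    rw [h, Place.ord_zero] at hinf
    have : ((r : ℤ) + 1) * (1 - (p : ℤ)) < 0 := by nlinarith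
    omega
  have hnc : ∀ Q : Place Kbar (FN p), Q ≠ cuspInf p → Q ≠ cuspZero hp →
      Q.ord (heckeNormF p r (gEta p)) = 0 := by
    intro Q h1 h2
    refine ord_heckeNormF_of_nonneg r hα hfin hNF Q (not_lt.1 fun hj => ?_)
    rcases eq_cusp_of_ord_jF_neg hp Q hj with h | h
    · exact h1 h
    · exact h2 h
  by_cases hj : P.ord (jF p) < 0
  · rcases eq_cusp_of_ord_jF_neg hp P hj with rfl | rfl
    · rw [hinf, ord_cuspInf_gEta]
    · -- degree zero
      obtain ⟨D, hD, hdeg⟩ := (Fermat.Agent.RR.ModularBar.hasPrincipalDivisors p).exists_divisor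
        (heckeNormF p r (gEta p)) hv0
      have hDeq : D = Finsupp.single (cuspInf p) (D (cuspInf p)) +
          Finsupp.single (cuspZero hp) (D (cuspZero hp)) := by
        ext Q
        rw [Finsupp.add_apply, Finsupp.single_apply, Finsupp.single_apply]
        by_cases h1 : cuspInf p = Q
        · subst h1
          rw [if_pos rfl, if_neg (cuspZero_ne_cuspInf hp), add_zero]
        · by_cases h2 : cuspZero hp = Q
          · subst h2
            rw [if_neg h1, if_pos rfl, zero_add]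
          · rw [if_neg h1, if_neg h2, add_zero, hD, hnc Q (Ne.symm h1) (Ne.symm h2)]
      rw [hDeq, map_add, Divisor.degree_single, Divisor.degree_single,
        Fermat.Agent.RR.ModularBar.deg_eq_one, Fermat.Agent.RR.ModularBar.deg_eq_one, hD, hD,
        hinf] at hdeg
      rw [ord_cuspZero_gEta hp]
      push_cast at hdeg
      linarith
  · rw [ord_heckeNormF_of_nonneg r hα hfin hNF P (not_lt.1 hj),
      ord_etaQ_eq_zero p p dvd_rfl P (not_lt.1 hj), mul_zero]

/-- **`T_r ((0) − (∞)) = (r + 1) • ((0) − (∞))`** at the divisor level. -/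
theorem heckeDivBar_diffDiv (hp : p.Prime) (hrp : ¬ r ∣ p) (hα : HeckeAlphaBarIntegral Kbar p r)
    (hβ : HeckeBetaBarIntegral Kbar p r) [HasPrincipalDivisors Kbar (FN (p * r))]
    (hfin : FiniteAlong Kbar (alphaH p r)) (hNF : NormFormulaAlong Kbar (alphaH p r) hfin) :
    heckeDivBar hα hβ ((diffDiv p (cuspZero hp) (cuspInf p) :
        Divisor.degZero (K := Kbar) (F := FN p)) : Divisor Kbar (FN p)) =
      (r + 1) • ((diffDiv p (cuspZero hp) (cuspInf p) :
        Divisor.degZero (K := Kbar) (F := FN p)) : Divisor Kbar (FN p)) := by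
  set D0 : Divisor Kbar (FN p) := ((diffDiv p (cuspZero hp) (cuspInf p) :
    Divisor.degZero (K := Kbar) (F := FN p)) : Divisor Kbar (FN p)) with hD0
  have hD0' : D0 = Finsupp.single (cuspZero hp) (1 : ℤ) - Finsupp.single (cuspInf p) (1 : ℤ) := rfl
  have hg : ∀ P : Place Kbar (FN p), ((((p : ℤ) - 1) • D0 : Divisor Kbar (FN p))) P
      = P.ord (gEta p) := fun P => by
    rw [ord_gEta hp P, Finsupp.smul_apply, smul_eq_mul, hD0']
  have key : heckeDivBar hα hβ (((p : ℤ) - 1) • D0) = ((r : ℤ) + 1) • (((p : ℤ) - 1) • D0) := by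
    ext P
    rw [heckeDivBar_eq_ord_heckeNormF p r hα hβ hfin hNF (gEta p) gEta_ne_zero _ hg P,
      ord_heckeNormF r hp hrp hα hfin hNF P, Finsupp.smul_apply, hg P, smul_eq_mul]
  have hp1 : ((p : ℤ) - 1) ≠ 0 := by
    have : (2 : ℤ) ≤ p := by exact_mod_cast hp.two_le
    omega
  have h2 : ((p : ℤ) - 1) • heckeDivBar hα hβ D0 = ((p : ℤ) - 1) • (((r : ℤ) + 1) • D0) := by
    rw [← map_zsmul, key, smul_comm]
  have h3 := smul_right_injective (Divisor Kbar (FN p)) hp1 h2
  rw [h3]
  have : ((r + 1 : ℕ) : ℤ) = (r : ℤ) + 1 := by push_cast; ring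
  rw [← this, natCast_zsmul]

end Level

/-! ### the class level -/

section Class

variable {p : ℕ} [NeZero p]

/-- **(U3)** the cuspidal class is an Eisenstein eigenclass: `T_q c = (q + 1) • c`, `q ≠ p`. -/
theorem hecke_cusp (hp : p.Prime) (q : Nat.Primes) (hqp : (q : ℕ) ≠ p) :
    heckeOperatorBar p q (diffCl p (cuspZero hp) (cuspInf p)) =
      ((q : ℕ) + 1) • diffCl p (cuspZero hp) (cuspInf p) := by
  haveI : Fact (q : ℕ).Prime := ⟨q.2⟩
  have hqp' : ¬ (q : ℕ) ∣ p := fun h => hqp ((Nat.prime_dvd_prime_iff_eq q.2 hp).1 h)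
  obtain ⟨hα, hβ, hP, hfin, hFI, hN, hop⟩ :=
    Fermat.Agent.GJ.HInputs.exists_heckeOperatorBar_eq p q
  rw [hop]
  unfold diffCl
  show Pic0.mk (Pic0.degZeroCorrespondence _ _ hβ hα hFI (diffDiv p (cuspZero hp) (cuspInf p))) = _
  unfold Pic0.mk
  rw [← QuotientAddGroup.mk_nsmul]
  congr 1
  apply Subtype.ext
  have h := heckeDivBar_diffDiv (q : ℕ) hp hqp' hα hβ hfin hN
  exact h.trans (AddSubgroup.coe_nsmul _ _ _).symm

/-- **(UNIT), divisor half, COMPLETE**: the `CuspPkg p` of `GZ/Top/S15Top`. -/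
def cuspPkgFinal (hp : p.Prime) : CuspPkg p := cuspPkg hp (hecke_cusp hp)

end Class

end Fermat.Agent.GZ.Unit.Hecke
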