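/-
GATE-Z (Mazur block, S15) / node (UNIT) U2 = `GZ-UNIT-U2` (helper63; helper65 4895, helper20 5748).

**Ogg's lower bound without the `η`-multiplier**: `eisensteinNumerator p ∣ addOrderOf [(0) − (∞)]`
on `X₀(p)`.

Hypothesis form.  `Pinf = cuspInf p` is the `Q`-place of `F_p = ℚ̄(X₀(p)) ⊆ ℚ̄((Q))`, `Pzero` the other
cusp; the binders are the outputs of U0/U1:

* `hW`    : `W_p • Pinf = Pzero`  (Atkin–Lehner);
* `hfix`  : `Pzero` is fixed by the arithmetic Galois action;
* `hdivg` : the divisor of `g = Δ(Q)/Δ(Q^p)` is `(p − 1)((0) − (∞))`.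

Proof.  `m := addOrderOf c`, `m ∣ p − 1`, `k := (p − 1)/m`.  Take `f` with `div f = m((0) − (∞))`,
normalised to `Q`-expansion leading coefficient `1`.  Then `f^k = g` (same divisor, leading
coefficients `1`), `galF σ f = f` for all `σ` (same divisor, leading coefficient `σ 1 = 1`), so
`κ := W f · f` is a constant (`W` swaps the cusps) fixed by `G_ℚ`, i.e. `κ ∈ ℚ`, and
`κ^k = W g · g = p¹²` (Fricke).  Taking `p`-adic valuations `k ∣ 12`; with `k ∣ p − 1` this gives
`(p − 1)/gcd(p − 1, 12) ∣ m`.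
-/
import Mathlib
import Fermat.Prelude.Def_ModularCurve_ModularUnit
import Fermat.Agent.GL.Eta.Fricke
import Fermat.Agent.GL.Eta.BRingEta
import Fermat.Agent.GK.AL.WGal
import Fermat.Agent.GJ.Desc.QPlace
import Fermat.Agent.GR.W.RatRep
import Fermat.Agent.S28.UnitOrders
import Fermat.Agent.GJ27.Desc.LSpace

set_option autoImplicit false

noncomputable section

open AlgebraicCurve ModularCurve

namespace Fermat.Agent.GZ.Unit.U2

open Fermat.Agent.S24 Fermat.Agent.S28 Fermat.Agent.GK.AL Fermat.Agent.GL.Eta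
open Fermat.Agent.GR.W.RatRep Fermat.Agent.RR

local notation "Qb" => AlgebraicClosure ℚ
local notation "GQ" => (AlgebraicClosure ℚ ≃ₐ[ℚ] AlgebraicClosure ℚ)

/-! ### leading coefficients of `Q`-expansions -/

section LC

variable {N : ℕ} [NeZero N]

/-- the leading coefficient of the `Q`-expansion. -/
def lc (x : FN N) : Qb := ((x : LaurentSeries Qb)).leadingCoeff

theorem lc_mul (x y : FN N) : lc (x * y) = lc x * lc y := by
  unfold lc
  rw [MulMemClass.coe_mul]
  exact HahnSeries.leadingCoeff_mul _ _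

theorem lc_one : lc (1 : FN N) = 1 := by
  unfold lc
  rw [OneMemClass.coe_one]
  exact HahnSeries.leadingCoeff_one

theorem lc_pow (x : FN N) (k : ℕ) : lc (x ^ k) = lc x ^ k := by
  induction k with
  | zero => rw [pow_zero, pow_zero, lc_one]
  | succ k ih => rw [pow_succ, pow_succ, lc_mul, ih]

theorem lc_algebraMap (a : Qb) : lc (algebraMap Qb (FN N) a) = a := by
  unfold lc
  have h : ((algebraMap Qb (FN N) a : FN N) : LaurentSeries Qb)
      = algebraMap Qb (LaurentSeries Qb) a := rfl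
  rw [h, algebraMap_laurentSeries_eq_single, HahnSeries.leadingCoeff_of_single]

theorem lc_ne_zero {x : FN N} (hx : x ≠ 0) : lc x ≠ 0 := by
  unfold lc
  rw [HahnSeries.leadingCoeff_ne_zero]
  exact fun h => hx (Subtype.ext h)

theorem lc_galF (σ : GQ) (x : FN N) : lc (galF N σ x) = σ (lc x) := by
  unfold lc
  show (coeffMap (σ : Qb →+* Qb) (x : LaurentSeries Qb)).leadingCoeff = _
  exact Fermat.Agent.GJ.Desc.QP.leadingCoeff_coeffMap
    (show Function.Injective ((σ : Qb →+* Qb)) from σ.injective) _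

theorem leadingCoeff_of_hasLead {R : Type*} [CommRing R] {x : LaurentSeries R} {n : ℤ} {a : R}
    (h : HasLead x n a) (ha : a ≠ 0) : x.leadingCoeff = a := by
  rw [HahnSeries.leadingCoeff_eq, h.order_eq ha, h.1]

theorem hasLead_uInvS (R : Type*) [CommRing R] (d : ℕ) [NeZero d] :
    HasLead (uInvS R d) ((d : ℤ) * (-1) + 1) (1 * 1) :=
  ((hasLead_deltaInvS R).qExpand d).mul (hasLead_deltaS R)

theorem lc_etaQ (d : ℕ) [NeZero d] (hd : d ∣ N) : lc (etaQ N d hd) = 1 := by
  unfold lc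
  rw [coe_etaQ, leadingCoeff_of_hasLead (hasLead_uInvS Qb d) (by simp), one_mul]

end LC

/-! ### constants -/

section Const

variable {N : ℕ} [NeZero N]

/-- a function without zeros and poles is a nonzero constant. -/
theorem exists_const {x : FN N} (hx : x ≠ 0) (h : ∀ v : Place Qb (FN N), v.ord x = 0) :
    ∃ a : Qb, a ≠ 0 ∧ x = algebraMap Qb (FN N) a := by
  have := ModularBar.hasPrincipalDivisors N
  have := ModularBar.nonempty_place N
  exact Fermat.Agent.GJ27.Desc.exists_const_of_ord_eq_zero (ModularBar.deg_eq_one N) hx h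

/-- two functions with the same orders and the same `Q`-leading coefficient are equal. -/
theorem eq_of_ord_eq_of_lc_eq {x y : FN N} (hx : x ≠ 0) (hy : y ≠ 0)
    (h : ∀ v : Place Qb (FN N), v.ord x = v.ord y) (hlc : lc x = lc y) : x = y := by
  have hxy : x * y⁻¹ ≠ 0 := mul_ne_zero hx (inv_ne_zero hy)
  obtain ⟨a, ha, hxa⟩ := exists_const hxy (fun v => by
    rw [v.ord_mul hx (inv_ne_zero hy), v.ord_inv, h v, add_neg_cancel])
  have h1 : x = algebraMap Qb (FN N) a * y := by
    rw [← hxa, mul_assoc, inv_mul_cancel₀ hy, mul_one]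
  have h2 : lc x = a * lc y := by rw [h1, lc_mul, lc_algebraMap]
  have h3 : a = 1 := by
    have hly := lc_ne_zero hy
    rw [hlc] at h2
    have : (a - 1) * lc y = 0 := by rw [sub_mul, one_mul, ← h2, sub_self]
    rcases mul_eq_zero.mp this with h4 | h4
    · exact sub_eq_zero.mp h4
    · exact absurd h4 hly
  rw [h1, h3, map_one, one_mul]

/-- a `G_ℚ`-fixed element of `ℚ̄` is rational. -/
theorem mem_range_of_fixed {a : Qb} (h : ∀ σ : GQ, σ a = a) :
    a ∈ Set.range (algebraMap ℚ Qb) := by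
  have h1 : a ∈ IntermediateField.fixedField (⊤ : Subgroup GQ) := fun σ => h σ
  have h2 : IntermediateField.fixedField (⊤ : Subgroup GQ) = ⊥ :=
    InfiniteGalois.fixedField_bot
  rw [h2, IntermediateField.mem_bot] at h1
  exact h1

end Const

/-! ### the main theorem -/

section Main

variable {p : ℕ} [NeZero p] (hpp : ExactDvd p p)

/-- `k ∣ 12` from `κ ^ k = p ^ 12`, `κ` rational, `p` prime. -/
theorem dvd_twelve_of_pow_eq {p : ℕ} (hp : p.Prime) {k : ℕ} {r : ℚ} (h : r ^ k = (p : ℚ) ^ 12) :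
    k ∣ 12 := by
  have : Fact p.Prime := ⟨hp⟩
  have h1 := congrArg (padicValRat p) h
  rw [padicValRat.pow, padicValRat.pow, padicValRat.self hp.one_lt, mul_one] at h1
  have h2 : (k : ℤ) ∣ 12 := ⟨padicValRat p r, by rw [h1]; norm_num⟩
  exact_mod_cast h2

set_option maxHeartbeats 1600000 in
/-- **Ogg's lower bound**: `eisensteinNumerator p` divides the order of the cuspidal class. -/
theorem eisensteinNumerator_dvd_addOrderOf (Pzero : Place Qb (FN p))
    (hW : wAut hpp • cuspInf p = Pzero) (hne : Pzero ≠ cuspInf p)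
    (hfix : ∀ σ : GQ, arithmeticGalois (modularFunctionFieldFull p) σ • Pzero = Pzero)
    (hdivg : ∀ P : Place Qb (FN p), P.ord (etaQ p p dvd_rfl) =
      ((p : ℤ) - 1) * (Finsupp.single Pzero (1 : ℤ) - Finsupp.single (cuspInf p) (1 : ℤ)) P)
    (h0 : (Finsupp.single Pzero (1 : ℤ) - Finsupp.single (cuspInf p) (1 : ℤ) : Divisor Qb (FN p))
      ∈ Divisor.degZero (K := Qb) (F := FN p)) :
    eisensteinNumerator p ∣ addOrderOf (Pic0.mk ⟨_, h0⟩ : JZero p) := by
  classical
  have hp := hpp.prime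
  set Pinf := cuspInf p with hPinf
  set D0 : Divisor Qb (FN p) := Finsupp.single Pzero (1 : ℤ) - Finsupp.single Pinf (1 : ℤ) with hD0
  set c : JZero p := Pic0.mk ⟨D0, h0⟩ with hc
  set g : FN p := etaQ p p dvd_rfl with hg
  have hg0 : g ≠ 0 := etaQ_ne_zero p p dvd_rfl
  -- the values of `D0`
  have hD0z : D0 Pzero = 1 := by
    rw [hD0, Finsupp.sub_apply, Finsupp.single_eq_same, Finsupp.single_eq_of_ne hne, sub_zero]
  have hD0i : D0 Pinf = -1 := by
    rw [hD0, Finsupp.sub_apply, Finsupp.single_eq_same, Finsupp.single_eq_of_ne hne.symm, zero_sub]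
  have hD0o : ∀ P, P ≠ Pzero → P ≠ Pinf → D0 P = 0 := by
    intro P h1 h2
    rw [hD0, Finsupp.sub_apply, Finsupp.single_eq_of_ne h1, Finsupp.single_eq_of_ne h2,
      sub_zero]
  -- `W` swaps the cusps
  have hWi : wAut hpp • Pzero = Pinf := by
    rw [← hW, ← mul_smul]
    have : wAut hpp * wAut hpp = 1 :=
      AlgEquiv.ext fun f => wAut_wAut hpp f
    rw [this, one_smul]
  -- torsion criterion
  have key : ∀ n : ℕ, n • c = 0 ↔ n • D0 ∈ Divisor.principal (K := Qb) (F := FN p) := by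
    intro n
    have h1 : n • c = Pic0.mk (n • ⟨D0, h0⟩) := rfl
    rw [h1]
    show (QuotientAddGroup.mk _ : JZero p) = 0 ↔ _
    rw [QuotientAddGroup.eq_zero_iff, AddSubgroup.mem_addSubgroupOf]
    rfl
  -- `(p - 1) • c = 0`
  have hcast : ((p - 1 : ℕ) : ℤ) = (p : ℤ) - 1 := by
    rw [Nat.cast_sub hp.one_le, Nat.cast_one]
  have hp1 : (p - 1) • c = 0 := by
    rw [key]
    refine ⟨g, hg0, fun v => ?_⟩
    rw [Finsupp.smul_apply, hdivg v, nsmul_eq_mul, hcast]
  set m := addOrderOf c with hm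
  rcases Nat.eq_zero_or_pos m with hm0 | hmpos
  · rw [hm0]
    exact dvd_zero _
  obtain ⟨k, hk⟩ : m ∣ p - 1 := addOrderOf_dvd_of_nsmul_eq_zero hp1
  have hkpos : 0 < k := by
    rcases Nat.eq_zero_or_pos k with h | h
    · rw [h, mul_zero] at hk
      have := hp.one_lt
      omega
    · exact h
  -- a function with divisor `m • D0`
  obtain ⟨f₁, hf₁0, hf₁⟩ := (key m).mp (addOrderOf_nsmul_eq_zero c)
  -- normalise its leading coefficient
  set f : FN p := f₁ * algebraMap Qb (FN p) (lc f₁)⁻¹ with hf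
  have hlcf₁ : lc f₁ ≠ 0 := lc_ne_zero hf₁0
  have hcst0 : algebraMap Qb (FN p) (lc f₁)⁻¹ ≠ 0 :=
    (map_ne_zero (algebraMap Qb (FN p))).mpr (inv_ne_zero hlcf₁)
  have hf0 : f ≠ 0 := mul_ne_zero hf₁0 hcst0
  have hlcf : lc f = 1 := by
    rw [hf, lc_mul, lc_algebraMap, mul_inv_cancel₀ hlcf₁]
  have hordf : ∀ v : Place Qb (FN p), v.ord f = (m : ℤ) * D0 v := by
    intro v
    rw [hf, v.ord_mul hf₁0 hcst0, PlaceB.ord_algebraMap v (inv_ne_zero hlcf₁), add_zero, ← hf₁ v,
      Finsupp.smul_apply, nsmul_eq_mul]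
  -- `f ^ k = g`
  have hfk : f ^ k = g := by
    apply eq_of_ord_eq_of_lc_eq (pow_ne_zero k hf0) hg0
    · intro v
      rw [Global.ord_pow, hordf v, hdivg v, ← hcast, hk]
      push_cast
      ring
    · rw [lc_pow, hlcf, one_pow, hg, lc_etaQ]
  -- `f` is rational
  have hgal : ∀ σ : GQ, galF p σ f = f := by
    intro σ
    have hσf0 : galF p σ f ≠ 0 := (map_ne_zero_iff _ (galF p σ).injective).mpr hf0
    apply eq_of_ord_eq_of_lc_eq hσf0 hf0
    · intro v
      -- `v = σ • (σ⁻¹ • v)`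
      set γ := arithmeticGalois (modularFunctionFieldFull p) σ with hγ
      have h1 := SemilinearAut.ord_smul γ (γ⁻¹ • v) f
      rw [smul_inv_smul] at h1
      have h2 : γ • f = galF p σ f := rfl
      rw [h2] at h1
      rw [h1, hordf, hordf]
      congr 1
      -- `D0` is Galois-invariant
      have hγz : γ⁻¹ • Pzero = Pzero := by
        rw [inv_smul_eq_iff]; exact (hfix σ).symm
      have hγi : γ⁻¹ • Pinf = Pinf := by
        rw [inv_smul_eq_iff]; exact (galois_smul_cuspInf p σ).symm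
      by_cases hvz : v = Pzero
      · rw [hvz, hγz]
      by_cases hvi : v = Pinf
      · rw [hvi, hγi]
      rw [hD0o v hvz hvi, hD0o]
      · intro h3
        apply hvz
        rw [inv_smul_eq_iff] at h3
        rw [h3, hfix σ]
      · intro h3
        apply hvi
        rw [inv_smul_eq_iff] at h3
        rw [h3]
        exact galois_smul_cuspInf p σ
    · rw [lc_galF, hlcf, map_one]
  -- `W f * f` is a constant
  have hWf0 : wAut hpp f ≠ 0 := (map_ne_zero_iff _ (wAut hpp).injective).mpr hf0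
  have hordWf : ∀ v : Place Qb (FN p), v.ord (wAut hpp f) = -((m : ℤ) * D0 v) := by
    intro v
    have h1 := Place.ord_smul (wAut hpp) ((wAut hpp)⁻¹ • v) f
    rw [smul_inv_smul] at h1
    rw [h1, hordf]
    have hinvz : (wAut hpp)⁻¹ • Pzero = Pinf := by rw [inv_smul_eq_iff]; exact hW.symm
    have hinvi : (wAut hpp)⁻¹ • Pinf = Pzero := by rw [inv_smul_eq_iff]; exact hWi.symm
    by_cases hvz : v = Pzero
    · rw [hvz, hinvz, hD0i, hD0z]; ring
    by_cases hvi : v = Pinf
    · rw [hvi, hinvi, hD0i, hD0z]; ring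
    rw [hD0o v hvz hvi, hD0o]
    · ring
    · intro h3
      apply hvi
      rw [inv_smul_eq_iff] at h3
      rw [h3, hWi]
    · intro h3
      apply hvz
      rw [inv_smul_eq_iff] at h3
      rw [h3, hW]
  have hordprod : ∀ v : Place Qb (FN p), v.ord (wAut hpp f * f) = 0 := by
    intro v
    have h1 := v.ord_mul hWf0 hf0
    have h2 := hordWf v
    have h3 := hordf v
    omega
  obtain ⟨κ, hκ0, hκ⟩ := exists_const (mul_ne_zero hWf0 hf0) hordprod
  -- `κ` is rational
  have hκfix : ∀ σ : GQ, σ κ = κ := by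
    intro σ
    have h1 : galF p σ (wAut hpp f * f) = wAut hpp f * f := by
      rw [map_mul, ← wAut_galF, hgal σ]
    rw [hκ, galF_algebraMap] at h1
    exact (algebraMap Qb (FN p)).injective h1
  obtain ⟨r, hr⟩ := mem_range_of_fixed hκfix
  -- `κ ^ k = p ^ 12`
  have hκk : κ ^ k = (p : Qb) ^ 12 := by
    apply (algebraMap Qb (FN p)).injective
    rw [map_pow, ← hκ, mul_pow, ← map_pow, hfk, hg, wAut_etaQ_mul, map_pow, map_natCast]
  have hrk : r ^ k = (p : ℚ) ^ 12 := by
    apply (algebraMap ℚ Qb).injective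
    rw [map_pow, hr, hκk, map_pow, map_natCast]
  have hk12 : k ∣ 12 := dvd_twelve_of_pow_eq hp hrk
  -- conclusion
  have hkp : k ∣ p - 1 := ⟨m, by rw [hk, mul_comm]⟩
  have hkG : k ∣ Nat.gcd (p - 1) 12 := Nat.dvd_gcd hkp hk12
  obtain ⟨k', hk'⟩ := hkG
  have hGpos : 0 < Nat.gcd (p - 1) 12 := Nat.gcd_pos_of_pos_right _ (by norm_num)
  have hGdvd : Nat.gcd (p - 1) 12 ∣ p - 1 := Nat.gcd_dvd_left _ _
  -- `m = eisensteinNumerator p * k'`
  refine ⟨k', ?_⟩
  rw [eisensteinNumerator]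
  -- `(p - 1) / G * k' = m`, from `p - 1 = m * k`, `G = k * k'`
  have h1 : (p - 1) / Nat.gcd (p - 1) 12 * Nat.gcd (p - 1) 12 = p - 1 :=
    Nat.div_mul_cancel hGdvd
  have h2 : (p - 1) / Nat.gcd (p - 1) 12 * k' * k = m * k := by
    calc (p - 1) / Nat.gcd (p - 1) 12 * k' * k
        = (p - 1) / Nat.gcd (p - 1) 12 * (k * k') := by ring
      _ = (p - 1) / Nat.gcd (p - 1) 12 * Nat.gcd (p - 1) 12 := by rw [← hk']
      _ = p - 1 := h1
      _ = m * k := hk
  exact (Nat.eq_of_mul_eq_mul_right hkpos h2).symm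

/-- `eisensteinNumerator p > 1` outside the genus-zero primes. -/
theorem one_lt_eisensteinNumerator {p : ℕ} (hp : p.Prime)
    (hp' : p ∉ ({2, 3, 5, 7, 13} : Finset ℕ)) : 1 < eisensteinNumerator p := by
  rw [eisensteinNumerator]
  have hG : Nat.gcd (p - 1) 12 ∣ p - 1 := Nat.gcd_dvd_left _ _
  have hG12 : Nat.gcd (p - 1) 12 ∣ 12 := Nat.gcd_dvd_right _ _
  have hGpos : 0 < Nat.gcd (p - 1) 12 := Nat.gcd_pos_of_pos_right _ (by norm_num)
  have hp1 : 0 < p - 1 := by have := hp.one_lt; omega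
  by_contra hle
  rw [not_lt] at hle
  have hge : 1 ≤ (p - 1) / Nat.gcd (p - 1) 12 :=
    (Nat.one_le_div_iff hGpos).mpr (Nat.le_of_dvd hp1 hG)
  have heq : (p - 1) / Nat.gcd (p - 1) 12 = 1 := le_antisymm hle hge
  have h1 : p - 1 = Nat.gcd (p - 1) 12 := by
    have := Nat.div_mul_cancel hG
    rw [heq, one_mul] at this
    exact this.symm
  have h2 : p - 1 ∣ 12 := h1 ▸ hG12
  have h3 : p - 1 ≤ 12 := Nat.le_of_dvd (by norm_num) h2
  have h4 : p ≤ 13 := by omega
  simp only [Finset.mem_insert, Finset.mem_singleton, not_or] at hp'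
  obtain ⟨hp2, hp3, hp5, hp7, hp13⟩ := hp'
  clear h1 heq hge hle hG hG12 hGpos
  interval_cases p
  all_goals first
    | omega
    | (exfalso; revert hp; decide)

/-- the cuspidal class has order `> 1` outside the genus-zero primes. -/
theorem one_lt_addOrderOf (hp' : p ∉ ({2, 3, 5, 7, 13} : Finset ℕ)) (Pzero : Place Qb (FN p))
    (hW : wAut hpp • cuspInf p = Pzero) (hne : Pzero ≠ cuspInf p)
    (hfix : ∀ σ : GQ, arithmeticGalois (modularFunctionFieldFull p) σ • Pzero = Pzero)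
    (hdivg : ∀ P : Place Qb (FN p), P.ord (etaQ p p dvd_rfl) =
      ((p : ℤ) - 1) * (Finsupp.single Pzero (1 : ℤ) - Finsupp.single (cuspInf p) (1 : ℤ)) P)
    (h0 : (Finsupp.single Pzero (1 : ℤ) - Finsupp.single (cuspInf p) (1 : ℤ) : Divisor Qb (FN p))
      ∈ Divisor.degZero (K := Qb) (F := FN p))
    (htors : (p - 1) • (Pic0.mk ⟨_, h0⟩ : JZero p) = 0) :
    1 < addOrderOf (Pic0.mk ⟨_, h0⟩ : JZero p) := by
  have hp := hpp.prime
  have h1 := eisensteinNumerator_dvd_addOrderOf hpp Pzero hW hne hfix hdivg h0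
  have h2 := one_lt_eisensteinNumerator hp hp'
  have hpos : 0 < addOrderOf (Pic0.mk ⟨_, h0⟩ : JZero p) := by
    apply Nat.pos_of_ne_zero
    intro h
    have h3 : addOrderOf (Pic0.mk ⟨_, h0⟩ : JZero p) ∣ p - 1 :=
      addOrderOf_dvd_of_nsmul_eq_zero htors
    rw [h, zero_dvd_iff] at h3
    have := hp.one_lt
    omega
  exact lt_of_lt_of_le h2 (Nat.le_of_dvd hpos h1)

end Main

end Fermat.Agent.GZ.Unit.U2
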