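/-
GATE-Z (Mazur block, S15) / node (UNIT) U2, plug (helper63): Ogg's lower bound on helper24's frame
`GZ/Unit/Cusps.lean` (version of record for U0 + U1), binder-free.

* `eisensteinNumerator_dvd_addOrderOf_cusp` :
    `eisensteinNumerator p ∣ addOrderOf (diffCl p (cuspZero hp) (cuspInf p))`;
* `one_lt_addOrderOf_cusp` : for `p ∉ {2, 3, 5, 7, 13}`,
    `1 < addOrderOf (diffCl p (cuspZero hp) (cuspInf p))`;
* `one_lt_addOrderOf_c` : the same for `(cuspPkg hp hecke).c`;
* `cusp_class_ne_zero`.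
-/
import Fermat.Agent.GZ.Unit.U2
import Fermat.Agent.GZ.Unit.Cusps

set_option autoImplicit false

noncomputable section

open AlgebraicCurve ModularCurve

namespace Fermat.Agent.GZ.Unit.U2Plug

open Fermat.Agent.S24 Fermat.Agent.S28 Fermat.Agent.GK.AL Fermat.Agent.GL.Eta
  Fermat.Agent.GR.W.RatRep Fermat.Agent.GZ.Top Fermat.Agent.GZ.Unit

variable {p : ℕ} [NeZero p]

/-- **Ogg's lower bound**: `eisensteinNumerator p` divides the order of the cuspidal class. -/
theorem eisensteinNumerator_dvd_addOrderOf_cusp (hp : p.Prime) :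
    eisensteinNumerator p ∣ addOrderOf (diffCl p (cuspZero hp) (cuspInf p)) :=
  U2.eisensteinNumerator_dvd_addOrderOf (exactDvd_self hp) (cuspZero hp) rfl
    (cuspZero_ne_cuspInf hp) (galois_smul_cuspZero hp) (ord_gEta hp)
    (diffDiv p (cuspZero hp) (cuspInf p)).2

/-- the cuspidal class has order `> 1` outside the genus-zero primes. -/
theorem one_lt_addOrderOf_cusp (hp : p.Prime) (hp' : p ∉ ({2, 3, 5, 7, 13} : Finset ℕ)) :
    1 < addOrderOf (diffCl p (cuspZero hp) (cuspInf p)) :=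
  U2.one_lt_addOrderOf (exactDvd_self hp) hp' (cuspZero hp) rfl
    (cuspZero_ne_cuspInf hp) (galois_smul_cuspZero hp) (ord_gEta hp)
    (diffDiv p (cuspZero hp) (cuspInf p)).2 (nsmul_diffCl_eq_zero hp)

/-- the cuspidal class is non-zero outside the genus-zero primes. -/
theorem cusp_class_ne_zero (hp : p.Prime) (hp' : p ∉ ({2, 3, 5, 7, 13} : Finset ℕ)) :
    diffCl p (cuspZero hp) (cuspInf p) ≠ 0 := by
  intro h
  have h1 := one_lt_addOrderOf_cusp hp hp'
  rw [h, addOrderOf_zero] at h1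
  exact lt_irrefl _ h1

/-- the same for the class `c` of the `CuspPkg`. -/
theorem one_lt_addOrderOf_c (hp : p.Prime) (hp' : p ∉ ({2, 3, 5, 7, 13} : Finset ℕ))
    (hecke : ∀ q : Nat.Primes, (q : ℕ) ≠ p →
      heckeOperatorBar p q (diffCl p (cuspZero hp) (cuspInf p)) =
        ((q : ℕ) + 1) • diffCl p (cuspZero hp) (cuspInf p)) :
    1 < addOrderOf (cuspPkg hp hecke).c :=
  one_lt_addOrderOf_cusp hp hp'

/-- `eisensteinNumerator p ∣ addOrderOf c` for the class `c` of the `CuspPkg`. -/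
theorem eisensteinNumerator_dvd_addOrderOf_c (hp : p.Prime)
    (hecke : ∀ q : Nat.Primes, (q : ℕ) ≠ p →
      heckeOperatorBar p q (diffCl p (cuspZero hp) (cuspInf p)) =
        ((q : ℕ) + 1) • diffCl p (cuspZero hp) (cuspInf p)) :
    eisensteinNumerator p ∣ addOrderOf (cuspPkg hp hecke).c :=
  eisensteinNumerator_dvd_addOrderOf_cusp hp

end Fermat.Agent.GZ.Unit.U2Plug
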