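/-
GATE-Z (S15) / (UNIT) U0, complement (helper24; ASK of helper16, board 5881): the orders of
`j_p = j(Q^p)` at the two cusps of `X₀(p)`, "only two poles" for `j_p`, and helper16's generic cusp
datum `GenCusp (cuspInf p) (cuspZero hp) (jF p) (jdF p p _) p` of `GZ/Mod/Inst/NoCancel.lean`.

* `ord_cuspInf_jdF  : ord_∞ j_p = -p`;   `ord_cuspZero_jdF : ord_0 j_p = -1`;
* `wAut_smul_cuspZero : W • 0 = ∞`;
* `eq_cusp_of_ord_jdF_neg` : a pole of `j_p` is `∞` or `0`;
* `genCusp hp : GenCusp (cuspInf p) (cuspZero hp) (jF p) (jdF p p dvd_rfl) p`.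
-/
import Fermat.Agent.GZ.Unit.Cusps
import Fermat.Agent.GZ.Mod.Inst.NoCancel

set_option autoImplicit false

noncomputable section

open AlgebraicCurve ModularCurve

namespace Fermat.Agent.GZ.Unit

open Fermat.Agent.S24 Fermat.Agent.S24.Degree Fermat.Agent.S28 Fermat.Agent.GK.AL Fermat.Agent.GL.Eta
  Fermat.Agent.GR.W.RatRep Fermat.Agent.GZ.Top

variable {p : ℕ} [NeZero p]

/-- `ord_∞ j_p = -p` -/
theorem ord_cuspInf_jdF : (cuspInf p).ord (jdF p p dvd_rfl) = -(p : ℤ) := by
  rw [ord_cuspInf, coe_jdF', order_jS]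

/-- `ord_0 j_p = -1` -/
theorem ord_cuspZero_jdF (hp : p.Prime) : (cuspZero hp).ord (jdF p p dvd_rfl) = -1 := by
  rw [ord_cuspZero, show jdF p p dvd_rfl = jdF p p (exactDvd_self hp).dvd from rfl,
    wAut_jdF' (exactDvd_self hp), ord_cuspInf_jF]

/-- `W • (W • P) = P` -/
theorem wAut_smul_smul (hp : p.Prime) (P : Place Kbar (FN p)) :
    wAut (exactDvd_self hp) • (wAut (exactDvd_self hp) • P) = P := by
  rw [← mul_smul]
  have h1 : wAut (exactDvd_self hp) * wAut (exactDvd_self hp) = 1 := by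
    refine AlgEquiv.ext fun f => ?_
    rw [AlgEquiv.mul_apply, wAut_wAut, AlgEquiv.one_apply]
  rw [h1, one_smul]

/-- `W • 0 = ∞` -/
theorem wAut_smul_cuspZero (hp : p.Prime) :
    wAut (exactDvd_self hp) • cuspZero hp = cuspInf p := by
  unfold cuspZero
  exact wAut_smul_smul hp _

/-- `ord_{W • P} j = ord_P j_p` -/
theorem ord_wAut_smul_jF (hp : p.Prime) (P : Place Kbar (FN p)) :
    (wAut (exactDvd_self hp) • P).ord (jF p) = P.ord (jdF p p dvd_rfl) := by
  have h := Place.ord_smul (wAut (exactDvd_self hp)) P (jdF p p (exactDvd_self hp).dvd)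
  rwa [wAut_jdF' (exactDvd_self hp)] at h

/-- **a pole of `j_p` is one of the two cusps** -/
theorem eq_cusp_of_ord_jdF_neg (hp : p.Prime) (P : Place Kbar (FN p))
    (hP : P.ord (jdF p p dvd_rfl) < 0) : P = cuspInf p ∨ P = cuspZero hp := by
  have h1 : (wAut (exactDvd_self hp) • P).ord (jF p) < 0 := by
    rw [ord_wAut_smul_jF hp P]; exact hP
  rcases eq_cusp_of_ord_jF_neg hp _ h1 with h | h
  · right
    rw [← wAut_smul_smul hp P, h]
    rfl
  · left
    rw [← wAut_smul_smul hp P, h, wAut_smul_cuspZero]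

/-- **helper16's generic cusp datum at level `p`.** -/
theorem genCusp (hp : p.Prime) :
    Fermat.Agent.GZ.Mod.Inst.GenCusp (cuspInf p) (cuspZero hp) (jF p) (jdF p p dvd_rfl) p where
  two_le := hp.two_le
  J_i := ord_cuspInf_jF
  J_z := ord_cuspZero_jF hp
  Jp_i := ord_cuspInf_jdF
  Jp_z := ord_cuspZero_jdF hp
  J_reg := fun P h1 h2 => by
    by_contra hneg
    rcases eq_cusp_of_ord_jF_neg hp P (not_le.mp hneg) with h | h
    · exact h1 h
    · exact h2 h
  Jp_reg := fun P h1 h2 => by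
    by_contra hneg
    rcases eq_cusp_of_ord_jdF_neg hp P (not_le.mp hneg) with h | h
    · exact h1 h
    · exact h2 h

end Fermat.Agent.GZ.Unit
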