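/-
GATE-Z (S15) / node (UNIT), layer U1, twin of helper24's `GZ/Unit/Cusps.lean` on the general-level
places of `GZ/Unit/Places.lean`, ns `Fermat.Agent.GZ.UnitN` (no name clash with `Fermat.Agent.GZ.Unit`) (helper25; design helper65 board 4895, contract helper20 5748):
the divisor of the eta quotient on `X₀(p)`, `p` prime, and the torsion of the cuspidal class.

* `exactDvd_self`        : `ExactDvd p p`;
* `ord_jF_nonneg`        : `j` has no pole outside `{∞, 0}` (pole count `= ψ(p) = p + 1 = 1 + p`);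
* `ord_etaQ_of_ne`       : `g = Δ(Q)/Δ(Q^p)` has no zero or pole outside `{∞, 0}`;
* `etaQ_principal`       : `(p − 1)((0) − (∞)) = div g`;
* `tors`                 : `(p − 1) • c = 0` for `c = diffCl p 0 ∞` — the `tors` field of `CuspPkg`.
-/
import Mathlib
import Fermat.Agent.GZ.Unit.Places
import Fermat.Agent.GZ.Top.S15Top
import Fermat.Agent.GJ.FF.PrincipalGen
import Fermat.Agent.RR.ModularBar

set_option autoImplicit false

noncomputable section

namespace Fermat.Agent.GZ.UnitN

open AlgebraicCurve ModularCurve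
open Fermat.Agent.GR.W.RatRep Fermat.Agent.GK.AL Fermat.Agent.GL.Eta
open Fermat.Agent.S24 Fermat.Agent.S28 Fermat.Agent.GZ.Top

local notation "Qb" => AlgebraicClosure ℚ

theorem exactDvd_self {p : ℕ} (hp : p.Prime) : ExactDvd p p :=
  ⟨hp, dvd_rfl, fun h => by
    have h1 : p ^ 2 ≤ p := Nat.le_of_dvd hp.pos h
    have h2 := hp.two_le
    nlinarith⟩

theorem dedekindPsi_prime' {p : ℕ} (hp : p.Prime) : dedekindPsi p = p + 1 := by
  have h1 : p ≠ 1 := hp.ne_one
  have hsq : Squarefree p := hp.prime.squarefree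
  rw [dedekindPsi, hp.divisors, Finset.filter_insert, if_pos squarefree_one,
    Finset.filter_singleton, if_pos hsq, Finset.sum_insert (by simpa using h1.symm),
    Finset.sum_singleton, Nat.div_one, Nat.div_self hp.pos]

section Prime

variable {p : ℕ} [NeZero p] (hp : p.Prime)

/-- the cusp `0` of `X₀(p)` -/
abbrev cusp0 : Place Qb ↥(modularFunctionFieldBar p) := cuspZero (exactDvd_self hp)

theorem cusp0_ne_cuspInf : cusp0 hp ≠ cuspInf p :=
  cuspZero_ne_cuspInf (exactDvd_self hp) hp.two_le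

/-- **`j` has no pole outside the two cusps** (`deg (j)_∞ = ψ(p) = p + 1 = 1 + p`). -/
theorem ord_jF_nonneg (P : Place Qb ↥(modularFunctionFieldBar p)) (h1 : P ≠ cuspInf p)
    (h0 : P ≠ cusp0 hp) : 0 ≤ P.ord (jF p) := by
  classical
  have hgen := Fermat.Agent.RR.ModularBar.isGen_jF p
  have hj0 : jF p ≠ 0 := fun h => by
    have := ord_jF_cuspInf p
    rw [h, Place.ord_zero] at this
    omega
  obtain ⟨D, hD, -⟩ := (Fermat.Agent.RR.ModularBar.hasPrincipalDivisors p).exists_divisor
    (jF p) hj0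
  set E : Divisor Qb ↥(modularFunctionFieldBar p) := (-D) ⊔ 0 with hE
  have hEv : ∀ v : Place Qb ↥(modularFunctionFieldBar p), E v = max (-(v.ord (jF p))) 0 := by
    intro v
    rw [hE, Finsupp.sup_apply, Finsupp.neg_apply, hD v]
    rfl
  have hdeg : Divisor.degree E = ((p + 1 : ℕ) : ℤ) := by
    rw [Fermat.Agent.GJ.FF.PrincipalOf.degree_eq_finrank_of_poles (jF p)
      (Fermat.Agent.S24.Degree.transcendental_jF p) E hEv,
      Fermat.Agent.S24_helper62.finrank_FN, dedekindPsi_prime' hp]
  -- the part of `E` at the three places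
  set G : Divisor Qb ↥(modularFunctionFieldBar p) :=
    Finsupp.single (cuspInf p) 1 + Finsupp.single (cusp0 hp) (p : ℤ) + Finsupp.single P (E P)
    with hG
  have hEP : 0 ≤ E P := by rw [hEv]; exact le_max_right _ _
  have hGE : G ≤ E := by
    rw [Finsupp.le_def]
    intro v
    rw [hG, Finsupp.add_apply, Finsupp.add_apply, Finsupp.single_apply, Finsupp.single_apply,
      Finsupp.single_apply]
    by_cases hv1 : cuspInf p = v
    · subst hv1
      rw [if_pos rfl, if_neg (cusp0_ne_cuspInf hp), if_neg h1, hEv, ord_jF_cuspInf]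
      simp
    · by_cases hv0 : cusp0 hp = v
      · subst hv0
        rw [if_neg hv1, if_pos rfl, if_neg h0, hEv, ord_jF_cuspZero]
        simp
      · by_cases hvP : P = v
        · subst hvP
          rw [if_neg hv1, if_neg hv0, if_pos rfl]
          simp
        · rw [if_neg hv1, if_neg hv0, if_neg hvP]
          simp only [add_zero]
          rw [hEv]
          exact le_max_right _ _
  have hsub : 0 ≤ Divisor.degree (E - G) :=
    Fermat.Agent.RRh45.degree_nonneg_of_nonneg (sub_nonneg.2 hGE)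
  rw [map_sub, hdeg, hG, map_add, map_add, Divisor.degree_single, Divisor.degree_single,
    Divisor.degree_single, Fermat.Agent.RR.ModularBar.deg_eq_one,
    Fermat.Agent.RR.ModularBar.deg_eq_one, Fermat.Agent.RR.ModularBar.deg_eq_one] at hsub
  have hEP0 : E P = 0 := by
    push_cast at hsub
    omega
  rw [hEv] at hEP0
  have := le_max_left (-(P.ord (jF p))) 0
  omega

/-- `g = Δ(Q)/Δ(Q^p)` has neither zeros nor poles outside the two cusps. -/
theorem ord_etaQ_of_ne (P : Place Qb ↥(modularFunctionFieldBar p)) (h1 : P ≠ cuspInf p)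
    (h0 : P ≠ cusp0 hp) : P.ord (etaQ p p dvd_rfl) = 0 :=
  ord_etaQ_eq_zero p p dvd_rfl P (ord_jF_nonneg hp P h1 h0)

/-- **`div g = (p − 1)((0) − (∞))`**. -/
theorem ord_etaQ_eq (P : Place Qb ↥(modularFunctionFieldBar p)) :
    (((p - 1 : ℕ) • (diffDiv p (cusp0 hp) (cuspInf p))
      : Divisor.degZero (K := Qb) (F := ↥(modularFunctionFieldBar p))) :
        Divisor Qb ↥(modularFunctionFieldBar p)) P = P.ord (etaQ p p dvd_rfl) := by
  classical
  have hp1 : ((p - 1 : ℕ) : ℤ) = (p : ℤ) - 1 := by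
    rw [Nat.cast_sub hp.one_le, Nat.cast_one]
  have hcoe : (((p - 1 : ℕ) • (diffDiv p (cusp0 hp) (cuspInf p))
      : Divisor.degZero (K := Qb) (F := ↥(modularFunctionFieldBar p))) :
        Divisor Qb ↥(modularFunctionFieldBar p)) =
      (p - 1 : ℕ) • (Finsupp.single (cusp0 hp) 1 - Finsupp.single (cuspInf p) 1) := by
    rw [AddSubgroup.coe_nsmul]
    rfl
  rw [hcoe, Finsupp.smul_apply, Finsupp.sub_apply, Finsupp.single_apply, Finsupp.single_apply,
    nsmul_eq_mul, hp1]
  by_cases hv1 : cuspInf p = P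
  · subst hv1
    rw [if_neg (cusp0_ne_cuspInf hp), if_pos rfl, ord_etaQ_cuspInf (exactDvd_self hp)]
    ring
  · by_cases hv0 : cusp0 hp = P
    · subst hv0
      rw [if_pos rfl, if_neg hv1, ord_etaQ_cuspZero (exactDvd_self hp)]
      ring
    · rw [if_neg hv0, if_neg hv1, ord_etaQ_of_ne hp P (Ne.symm hv1) (Ne.symm hv0)]
      ring

/-- **`(p − 1) • c = 0`** for the cuspidal class `c = [(0) − (∞)]` of `X₀(p)`. -/
theorem tors : (p - 1) • diffCl p (cusp0 hp) (cuspInf p) = 0 := by
  unfold diffCl Pic0.mk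
  rw [← QuotientAddGroup.mk_nsmul, QuotientAddGroup.eq_zero_iff, AddSubgroup.mem_addSubgroupOf,
    Divisor.mem_principal]
  exact ⟨etaQ p p dvd_rfl, etaQ_ne_zero p p dvd_rfl, fun v => ord_etaQ_eq hp v⟩

end Prime

end Fermat.Agent.GZ.UnitN
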